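import Fermat.Agent.S36.New.Defs
import Fermat.Agent.S36.Inst.Defs
import Fermat.Agent.S36.Inst.BranchGen
import Fermat.Agent.S36.Mod.EtaL
import Fermat.Agent.S36.Mod.F0
import Fermat.Agent.S36.Mod.BrDefs
import Fermat.Agent.S36.Mod.ValFix
import Fermat.Agent.S36.Mod.ValApi
import Fermat.Agent.S36.Mod.ValG
import Fermat.Agent.S36.Mod.ValV1
import Fermat.Agent.S36.ALCompat
import Fermat.Agent.S36.K0d
import Fermat.Agent.S34.GoodM
import Fermat.Agent.S34.Pullback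

/-!
# S36, block (NEW), modular side, (NDP): the pull-backs from level `M` on the three branches
-/

set_option autoImplicit false
set_option synthInstance.maxHeartbeats 400000
set_option linter.unusedSectionVars false
set_option linter.unusedVariables false

open AlgebraicCurve ModularCurve Polynomial
open scoped IntermediateField

namespace Fermat.Agent.S36Lib

open Fermat.Agent.S18Lib Fermat.Agent.S24Lib Fermat.Agent.S28Lib Fermat.Agent.ESLib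
  Fermat.Agent.S34Lib Fermat.Agent.FFLib

noncomputable section

/-- level `0` of a branch -/
theorem NDP_zero {A : ValuationSubring Qb} {N : ℕ} {e : FB N →+* LaurentSeries Qb} {ϖ : FB N}
    {g : FB N} {x : LaurentSeries Qb} (hx : x ∈ gRing A) (h : e g = x) :
    Ge A e ϖ 0 g ∧ rd A e ϖ 0 g = gRed A ⟨x, hx⟩ := by
  have h0 : e (ϖ ^ (-(0 : ℤ)) * g) = x := by
    rw [neg_zero, zpow_zero, one_mul, h]
  exact ⟨API_ge_of_eq hx h0, API_rd_eq hx h0⟩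

/-! ## the setting -/

variable {M q : ℕ} [NeZero M] [NeZero q] [hqF : Fact q.Prime] (hqM : ¬ q ∣ M)
variable {w : FB (q ^ 2 * M) ≃ₐ[Qb] FB (q ^ 2 * M)} {ζ : Qbˣ}
  {i : ℕ → FB (q ^ 2 * M) →ₐ[Qb] LaurentSeries Qb} {ζ₂ : Qbˣ}
variable (A : ValuationSubring Qb) (hA : A.LiesOverPrime q)
variable {H : FT A M} {Φ : Type} [CommRing Φ] [Algebra (kk A) Φ]
  {C : Core3 (A0 A) (resK0 A) Qb (F0 A (q ^ 2 * M)) (FB (q ^ 2 * M)) (FT A M) Φ}

/-! ## (NDP) `ND/Pull.lean` : the pull-backs from level `M` on the three branches -/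

theorem dvdM' (M q : ℕ) : M * q ^ 2 ∣ q ^ 2 * M := by rw [mul_comm]

theorem NDP_mem (x : OC M hqM A hA) : ((x : FB M) : LaurentSeries Qb) ∈ gRing A := x.2

theorem NDP_red (x : OC M hqM A hA) :
    gRed A ⟨((x : FB M) : LaurentSeries Qb), NDP_mem hqM A hA x⟩ =
      (redC M hqM A hA x : LaurentSeries (kk A)) := rfl

/-- `aHom x` : reductions `(x̄, x̄, V² x̄)` -/
theorem aHom_inf (x : OC M hqM A hA) :
    Ge A (eInf (q ^ 2 * M)) (qF (q ^ 2 * M) q) 0 (aHom (dvdM M q) (x : FB M)) ∧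
    rd A (eInf (q ^ 2 * M)) (qF (q ^ 2 * M) q) 0 (aHom (dvdM M q) (x : FB M)) =
      (redC M hqM A hA x : LaurentSeries (kk A)) := by
  rw [← NDP_red]
  exact NDP_zero (NDP_mem hqM A hA x) (coe_aHom (dvdM M q) (x : FB M))

theorem NDP_mid_aHom (B : BrData M q w ζ i ζ₂) (y : FB M) :
    i 1 (aHom (dvdM M q) y) = (y : LaurentSeries Qb) := by
  obtain ⟨y, hy⟩ := y
  rw [aHom_eq, (B.mid 1 BR_not_dvd_one).apply_of_mem y (FB_le_of_dvd (dvd_mul_left M q) hy)]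

theorem aHom_mid (B : BrData M q w ζ i ζ₂) (x : OC M hqM A hA) :
    Ge A (i 1 : FB (q ^ 2 * M) →+* LaurentSeries Qb) (piF M q) 0 (aHom (dvdM M q) (x : FB M)) ∧
    rd A (i 1 : FB (q ^ 2 * M) →+* LaurentSeries Qb) (piF M q) 0 (aHom (dvdM M q) (x : FB M)) =
      (redC M hqM A hA x : LaurentSeries (kk A)) := by
  rw [← NDP_red]
  exact NDP_zero (NDP_mem hqM A hA x) (NDP_mid_aHom B (x : FB M))

theorem NDP_al_aHom (hw : IsAL (q ^ 2 * M) (q ^ 2) M w) (y : FB M) :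
    ((w (aHom (dvdM M q) y) : FB (q ^ 2 * M)) : LaurentSeries Qb) =
      qExpand Qb (q ^ 2) (y : LaurentSeries Qb) := by
  obtain ⟨y, hy⟩ := y
  rw [aHom_eq, wQ_eq_qExpand (q ^ 2) M w hw.gen y hy]

theorem aHom_zero (B : BrData M q w ζ i ζ₂) (x : OC M hqM A hA) :
    Ge A (eZero w) (qF (q ^ 2 * M) q) 0 (aHom (dvdM M q) (x : FB M)) ∧
    rd A (eZero w) (qF (q ^ 2 * M) q) 0 (aHom (dvdM M q) (x : FB M)) =
      qExpand (kk A) (q ^ 2) (redC M hqM A hA x : LaurentSeries (kk A)) := by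
  rw [← NDP_red, ← gRed_qExpand A (q ^ 2) (NDP_mem hqM A hA x)]
  exact NDP_zero (qExpand_mem_gRing A (q ^ 2) (NDP_mem hqM A hA x))
    (NDP_al_aHom B.al (x : FB M))

/-- `w (bHom (q²) x) = aHom x` -/
theorem al_bHom (hw : IsAL (q ^ 2 * M) (q ^ 2) M w) (x : FB M) :
    w (bHom (q ^ 2) (dvdM' M q) x) = aHom (dvdM M q) x := by
  have h1 : bHom (q ^ 2) (dvdM' M q) x = w (aHom (dvdM M q) x) := by
    apply Subtype.ext
    rw [coe_bHom, NDP_al_aHom hw]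
  rw [h1, hw.invol]

/-- `bHom (q²) x` : reductions `(V² x̄, x̄, x̄)` -/
theorem bHom_inf (x : OC M hqM A hA) :
    Ge A (eInf (q ^ 2 * M)) (qF (q ^ 2 * M) q) 0 (bHom (q ^ 2) (dvdM' M q) (x : FB M)) ∧
    rd A (eInf (q ^ 2 * M)) (qF (q ^ 2 * M) q) 0 (bHom (q ^ 2) (dvdM' M q) (x : FB M)) =
      qExpand (kk A) (q ^ 2) (redC M hqM A hA x : LaurentSeries (kk A)) := by
  rw [← NDP_red, ← gRed_qExpand A (q ^ 2) (NDP_mem hqM A hA x)]
  exact NDP_zero (qExpand_mem_gRing A (q ^ 2) (NDP_mem hqM A hA x))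
    (coe_bHom (q ^ 2) (dvdM' M q) (x : FB M))

theorem NDP_mid_bHom (B : BrData M q w ζ i ζ₂) (y : FB M) :
    i 1 (bHom (q ^ 2) (dvdM' M q) y) = twist (ζ ^ 1) (y : LaurentSeries Qb) := by
  have hm : qExpand Qb (q ^ 2) (y : LaurentSeries Qb) ∈ FB (q ^ 2 * M) := by
    rw [← coe_bHom (q ^ 2) (dvdM' M q) y]
    exact Subtype.property _
  have h1 : bHom (q ^ 2) (dvdM' M q) y = ⟨qExpand Qb (q ^ 2) (y : LaurentSeries Qb), hm⟩ :=
    Subtype.ext (coe_bHom (q ^ 2) (dvdM' M q) y)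
  rw [h1, (B.mid 1 BR_not_dvd_one).apply_qExpand (y : LaurentSeries Qb) y.2 hm]

include hA in
theorem bHom_mid (B : BrData M q w ζ i ζ₂) (x : OC M hqM A hA) :
    Ge A (i 1 : FB (q ^ 2 * M) →+* LaurentSeries Qb) (piF M q) 0
      (bHom (q ^ 2) (dvdM' M q) (x : FB M)) ∧
    rd A (i 1 : FB (q ^ 2 * M) →+* LaurentSeries Qb) (piF M q) 0
      (bHom (q ^ 2) (dvdM' M q) (x : FB M)) = (redC M hqM A hA x : LaurentSeries (kk A)) := by
  have hU : IsU A ((ζ ^ 1 : Qbˣ) : Qb) := V1_isU_zeta A hqF.out (ζ ^ 1) (BR_prim B)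
  have h1 : ((ζ ^ 1 : Qbˣ) : Qb) - 1 ∈ A.nonunits :=
    K0d_zeta_sub_one_mem A hqF.out hA (V1_zeta (ζ ^ 1) (BR_prim B))
  rw [← NDP_red, ← gRed_twist A (ζ ^ 1) hU h1 (NDP_mem hqM A hA x)]
  exact NDP_zero (twist_mem_gRing A (ζ ^ 1) hU (NDP_mem hqM A hA x))
    (NDP_mid_bHom B (x : FB M))

theorem bHom_zero (B : BrData M q w ζ i ζ₂) (x : OC M hqM A hA) :
    Ge A (eZero w) (qF (q ^ 2 * M) q) 0 (bHom (q ^ 2) (dvdM' M q) (x : FB M)) ∧
    rd A (eZero w) (qF (q ^ 2 * M) q) 0 (bHom (q ^ 2) (dvdM' M q) (x : FB M)) =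
      (redC M hqM A hA x : LaurentSeries (kk A)) := by
  rw [← NDP_red]
  refine NDP_zero (NDP_mem hqM A hA x) ?_
  rw [eZero_apply, al_bHom B.al, coe_aHom]

theorem NDP_aHom_jBar : aHom (dvdM M q) (jBar M) = JF (q ^ 2 * M) 1 (one_dvd _) := by
  rw [← JF_one M]
  rfl

theorem aHom_mem_L (n : ℕ) (z : FB M) (hz : z ∈ riemannRochSpace (n • poleDiv Qb (jBar M))) :
    aHom (dvdM M q) z ∈
      riemannRochSpace (n • poleDiv Qb (JF (q ^ 2 * M) 1 (one_dvd _))) := by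
  rw [← NDP_aHom_jBar]
  exact EL_map_mem_L (aHom (dvdM M q)) (jBar M) z n hz

end

end Fermat.Agent.S36Lib
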