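import Fermat.Agent.S36.New.Defs
import Fermat.Agent.S36.Inst.Defs
import Fermat.Agent.S36.Mod.ResField
import Fermat.Agent.S36.Mod.ValV3
import Fermat.Agent.S36.ND.Pull

/-!
# S36, block (NEW), modular side, (NDA): weak approximation
-/

set_option autoImplicit false
set_option synthInstance.maxHeartbeats 400000
set_option linter.unusedSectionVars false
set_option linter.unusedVariables false

open AlgebraicCurve ModularCurve Polynomial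
open scoped IntermediateField

namespace Fermat.Agent.S36Lib

open Fermat.Agent.S18Lib Fermat.Agent.S24Lib Fermat.Agent.S28Lib Fermat.Agent.ESLib
  Fermat.Agent.S34Lib Fermat.Agent.FFLib

noncomputable section

/-! ### integral series with a given reduction -/

/-- `y` is in the Gauss ring, with reduction `b` -/
def NDA_R (A : ValuationSubring Qb) (y : LaurentSeries Qb) (b : LaurentSeries (kk A)) : Prop :=
  ∃ h : y ∈ gRing A, gRed A ⟨y, h⟩ = b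

section R

variable {A : ValuationSubring Qb}

theorem NDA_R.one : NDA_R A 1 1 := ⟨(gRing A).one_mem, map_one (gRed A)⟩

theorem NDA_R.add {x y : LaurentSeries Qb} {a b : LaurentSeries (kk A)} (hx : NDA_R A x a)
    (hy : NDA_R A y b) : NDA_R A (x + y) (a + b) := by
  obtain ⟨hx, rfl⟩ := hx
  obtain ⟨hy, rfl⟩ := hy
  exact ⟨(gRing A).add_mem hx hy, API_gRed_add hx hy _⟩

theorem NDA_R.neg {x : LaurentSeries Qb} {a : LaurentSeries (kk A)} (hx : NDA_R A x a) :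
    NDA_R A (-x) (-a) := by
  obtain ⟨hx, rfl⟩ := hx
  exact ⟨(gRing A).neg_mem hx, API_gRed_neg hx _⟩

theorem NDA_R.sub {x y : LaurentSeries Qb} {a b : LaurentSeries (kk A)} (hx : NDA_R A x a)
    (hy : NDA_R A y b) : NDA_R A (x - y) (a - b) := by
  rw [sub_eq_add_neg, sub_eq_add_neg]
  exact hx.add hy.neg

theorem NDA_R.mul {x y : LaurentSeries Qb} {a b : LaurentSeries (kk A)} (hx : NDA_R A x a)
    (hy : NDA_R A y b) : NDA_R A (x * y) (a * b) := by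
  obtain ⟨hx, rfl⟩ := hx
  obtain ⟨hy, rfl⟩ := hy
  exact ⟨(gRing A).mul_mem hx hy, API_gRed_mul hx hy _⟩

theorem NDA_R.pow {x : LaurentSeries Qb} {a : LaurentSeries (kk A)} (hx : NDA_R A x a) (n : ℕ) :
    NDA_R A (x ^ n) (a ^ n) := by
  obtain ⟨hx, rfl⟩ := hx
  exact ⟨(gRing A).pow_mem hx n, API_gRed_pow hx n _⟩

theorem NDA_R.inv {x : LaurentSeries Qb} {a : LaurentSeries (kk A)} (hx : NDA_R A x a)
    (ha : a ≠ 0) : NDA_R A x⁻¹ a⁻¹ := by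
  obtain ⟨hx, rfl⟩ := hx
  obtain ⟨h, -⟩ := IsGU.inv (A := A) ⟨hx, ha⟩
  exact ⟨h, gRed_inv hx h⟩

theorem NDA_R.congr {x : LaurentSeries Qb} {a b : LaurentSeries (kk A)} (hx : NDA_R A x a)
    (h : a = b) : NDA_R A x b := h ▸ hx

theorem NDA_iff {N : ℕ} {e : FB N →+* LaurentSeries Qb} {ϖ : FB N} {g : FB N}
    {b : LaurentSeries (kk A)} :
    (Ge A e ϖ 0 g ∧ rd A e ϖ 0 g = b) ↔ NDA_R A (e g) b := by
  have h0 : e (ϖ ^ (-(0 : ℤ)) * g) = e g := by rw [neg_zero, zpow_zero, one_mul]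
  constructor
  · rintro ⟨h, hr⟩
    have h' : e g ∈ gRing A := by rw [← h0]; exact h
    exact ⟨h', by rw [← hr, API_rd_eq h' h0]⟩
  · rintro ⟨h, hr⟩
    exact ⟨API_ge_of_eq h h0, by rw [API_rd_eq h h0, hr]⟩

end R

/-! ## the setting -/

variable {M q : ℕ} [NeZero M] [NeZero q] [hqF : Fact q.Prime] (hqM : ¬ q ∣ M)
variable {w : FB (q ^ 2 * M) ≃ₐ[Qb] FB (q ^ 2 * M)} {ζ : Qbˣ}
  {i : ℕ → FB (q ^ 2 * M) →ₐ[Qb] LaurentSeries Qb} {ζ₂ : Qbˣ}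
variable (A : ValuationSubring Qb) (hA : A.LiesOverPrime q)
variable {H : FT A M} {Φ : Type} [CommRing Φ] [Algebra (kk A) Φ]
  {C : Core3 (A0 A) (resK0 A) Qb (F0 A (q ^ 2 * M)) (FB (q ^ 2 * M)) (FT A M) Φ}

/-! ## (NDA) `ND/Approx.lean` : weak approximation -/

/-- `E = (j_q - j_{q²}^q) / (j^q - j^(q³))` -/
def NDA_E (M q : ℕ) [NeZero M] [NeZero q] : FB (q ^ 2 * M) :=
  (JF (q ^ 2 * M) q (Dvd.intro_left (q * M) (by ring)) -
      JF (q ^ 2 * M) (q ^ 2) (dvd_mul_right _ _) ^ q) *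
    (JF (q ^ 2 * M) 1 (one_dvd _) ^ q - JF (q ^ 2 * M) 1 (one_dvd _) ^ (q ^ 3))⁻¹

theorem NDA_isFix_E : IsFix A (q ^ 2 * M) (NDA_E M q) :=
  ((isFix_JF _ _ _).sub ((isFix_JF _ _ _).pow q)).mul
    (((isFix_JF _ _ _).pow q).sub ((isFix_JF _ _ _).pow (q ^ 3))).inv

variable {A}

theorem V2Tri.NDA_E {e : FB (q ^ 2 * M) →+* LaurentSeries Qb} {b₁ b₂ b₃ : LaurentSeries (kk A)}
    (h : V2Tri M q A e b₁ b₂ b₃) (hne : b₁ ^ q - b₁ ^ (q ^ 3) ≠ 0) :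
    NDA_R A (e (NDA_E M q)) ((b₂ - b₃ ^ q) * (b₁ ^ q - b₁ ^ (q ^ 3))⁻¹) := by
  have r1 : NDA_R A _ b₁ := h.h1
  have r2 : NDA_R A _ b₂ := h.h2
  have r3 : NDA_R A _ b₃ := h.h3
  rw [Fermat.Agent.S36Lib.NDA_E, map_mul, map_inv₀, map_sub, map_sub, map_pow, map_pow, map_pow]
  exact (r2.sub (r3.pow q)).mul (((r1.pow q).sub (r1.pow (q ^ 3))).inv hne)

variable (A)

theorem NDA_q_ne : q ≠ q ^ 3 := by
  have hq := hqF.out.two_le
  intro h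
  have h1 : q ^ 1 < q ^ 3 := Nat.pow_lt_pow_right (by omega) (by norm_num)
  rw [pow_one] at h1
  omega

theorem NDA_ne₁ : jqModC (kk A) ^ q - jqModC (kk A) ^ (q ^ 3) ≠ 0 :=
  sub_ne_zero.2 (V2_pow_ne A NDA_q_ne)

theorem NDA_ne₂ : (jqModC (kk A) ^ (q ^ 2)) ^ q - (jqModC (kk A) ^ (q ^ 2)) ^ (q ^ 3) ≠ 0 := by
  rw [← pow_mul, ← pow_mul]
  refine sub_ne_zero.2 (V2_pow_ne A ?_)
  intro h
  exact NDA_q_ne (Nat.eq_of_mul_eq_mul_left (pow_pos hqF.out.pos 2) h)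

include hA in
theorem NDA_E_inf : NDA_R A (eInf (q ^ 2 * M) (NDA_E M q)) 1 := by
  refine ((V2_tri_inf (M := M) A hA).NDA_E (NDA_ne₁ A)).congr ?_
  rw [← pow_mul, show q ^ 2 * q = q ^ 3 by ring]
  exact mul_inv_cancel₀ (NDA_ne₁ A)

include hA in
theorem NDA_E_zero (hw : IsAL (q ^ 2 * M) (q ^ 2) M w) : NDA_R A (eZero w (NDA_E M q)) 0 := by
  refine ((V2_tri_zero A hA hw).NDA_E (NDA_ne₂ A)).congr ?_
  rw [sub_self, zero_mul]

include hA in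
theorem NDA_E_mid {z : Qbˣ} (hz : IsPrimitiveRoot z q)
    {j : FB (q ^ 2 * M) →ₐ[Qb] LaurentSeries Qb} (hj : IsIMid M q z j) :
    NDA_R A (j (NDA_E M q)) 0 := by
  refine ((V2_tri_mid A hA hz hj).NDA_E (NDA_ne₁ A)).congr ?_
  rw [sub_self, zero_mul]

theorem NDA_al_JF (hw : IsAL (q ^ 2 * M) (q ^ 2) M w) (d d' : ℕ) (hd : d ∣ q ^ 2)
    (h : d ∣ q ^ 2 * M) (h' : d' ∣ q ^ 2 * M) (hdd : q ^ 2 / d = d') :
    w (JF (q ^ 2 * M) d h) = JF (q ^ 2 * M) d' h' := by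
  apply Subtype.ext
  have := V2_al_JF hw d hd h
  rw [eZero_apply, hdd] at this
  exact this

include hA in
/-- the branch `i ∘ w` -/
theorem NDA_tri_mid_al (hw : IsAL (q ^ 2 * M) (q ^ 2) M w) {z : Qbˣ} (hz : IsPrimitiveRoot z q)
    {j : FB (q ^ 2 * M) →ₐ[Qb] LaurentSeries Qb} (hj : IsIMid M q z j) :
    V2Tri M q A ((j : FB (q ^ 2 * M) →+* LaurentSeries Qb).comp
      (w : FB (q ^ 2 * M) →+* FB (q ^ 2 * M))) (jqModC (kk A)) (jqModC (kk A) ^ q)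
      (jqModC (kk A)) where
  h1 := by
    have e1 := NDA_al_JF hw 1 (q ^ 2) (one_dvd _) (one_dvd _) (dvd_mul_right _ _) (Nat.div_one _)
    refine V2_transfer ?_ (V2_tri_mid A hA hz hj).h3
    show j (w _) = j _
    rw [e1]
  h2 := by
    have e1 := NDA_al_JF hw q q (Dvd.intro_left q (by ring)) (Dvd.intro_left (q * M) (by ring))
      (Dvd.intro_left (q * M) (by ring)) (by rw [sq, Nat.mul_div_cancel _ hqF.out.pos])
    refine V2_transfer ?_ (V2_tri_mid A hA hz hj).h2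
    show j (w _) = j _
    rw [e1]
  h3 := by
    have e1 := NDA_al_JF hw (q ^ 2) 1 dvd_rfl (dvd_mul_right _ _) (one_dvd _)
      (Nat.div_self (pow_pos hqF.out.pos 2))
    refine V2_transfer ?_ (V2_tri_mid A hA hz hj).h1
    show j (w _) = j _
    rw [e1]

theorem NDA_prim_one (B : BrData M q w ζ i ζ₂) : IsPrimitiveRoot (ζ ^ 1) q := by
  rw [pow_one]; exact B.prim

theorem NDA_not_dvd_one : ¬ q ∣ 1 := fun h => hqF.out.one_lt.ne' (Nat.dvd_one.1 h)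

include hA in
/-- the idempotent `(1,0,0)` : `E = (j_q - j_{q²}^q) / (j^q - j^(q³))` -/
theorem exists_idem_inf (B : BrData M q w ζ i ζ₂) : ∃ E : FB (q ^ 2 * M),
    IsFix A (q ^ 2 * M) E ∧
    (Ge A (eInf (q ^ 2 * M)) (qF (q ^ 2 * M) q) 0 E ∧
      rd A (eInf (q ^ 2 * M)) (qF (q ^ 2 * M) q) 0 E = 1) ∧
    (Ge A (i 1 : FB (q ^ 2 * M) →+* LaurentSeries Qb) (piF M q) 0 E ∧
      rd A (i 1 : FB (q ^ 2 * M) →+* LaurentSeries Qb) (piF M q) 0 E = 0) ∧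
    (Ge A (eZero w) (qF (q ^ 2 * M) q) 0 E ∧ rd A (eZero w) (qF (q ^ 2 * M) q) 0 E = 0) :=
  ⟨NDA_E M q, NDA_isFix_E A, NDA_iff.2 (NDA_E_inf A hA),
    NDA_iff.2 (NDA_E_mid A hA (NDA_prim_one B) (B.mid 1 NDA_not_dvd_one)),
    NDA_iff.2 (NDA_E_zero A hA B.al)⟩

include hA in
/-- the idempotent `(0,0,1)` : `w E` -/
theorem exists_idem_zero (B : BrData M q w ζ i ζ₂) : ∃ E : FB (q ^ 2 * M),
    IsFix A (q ^ 2 * M) E ∧
    (Ge A (eInf (q ^ 2 * M)) (qF (q ^ 2 * M) q) 0 E ∧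
      rd A (eInf (q ^ 2 * M)) (qF (q ^ 2 * M) q) 0 E = 0) ∧
    (Ge A (i 1 : FB (q ^ 2 * M) →+* LaurentSeries Qb) (piF M q) 0 E ∧
      rd A (i 1 : FB (q ^ 2 * M) →+* LaurentSeries Qb) (piF M q) 0 E = 0) ∧
    (Ge A (eZero w) (qF (q ^ 2 * M) q) 0 E ∧ rd A (eZero w) (qF (q ^ 2 * M) q) 0 E = 1) := by
  refine ⟨w (NDA_E M q), (NDA_isFix_E A).al B.al, NDA_iff.2 (NDA_E_zero A hA B.al),
    NDA_iff.2 ?_, NDA_iff.2 ?_⟩
  · refine ((NDA_tri_mid_al A hA B.al (NDA_prim_one B) (B.mid 1 NDA_not_dvd_one)).NDA_E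
      (NDA_ne₁ A)).congr ?_
    rw [sub_self, zero_mul]
  · have h1 : eZero w (w (NDA_E M q)) = eInf (q ^ 2 * M) (NDA_E M q) := by
      rw [eZero_apply, B.al.invol, eInf_apply]
    rw [h1]
    exact NDA_E_inf A hA

include hqM hA in
/-- weak approximation in `Ge`/`rd` form -/
theorem exists_approx (B : BrData M q w ζ i ζ₂) (u₁ u₂ u₃ : FT A M) : ∃ h : FB (q ^ 2 * M),
    IsFix A (q ^ 2 * M) h ∧
    (Ge A (eInf (q ^ 2 * M)) (qF (q ^ 2 * M) q) 0 h ∧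
      rd A (eInf (q ^ 2 * M)) (qF (q ^ 2 * M) q) 0 h = (u₁ : LaurentSeries (kk A))) ∧
    (Ge A (i 1 : FB (q ^ 2 * M) →+* LaurentSeries Qb) (piF M q) 0 h ∧
      rd A (i 1 : FB (q ^ 2 * M) →+* LaurentSeries Qb) (piF M q) 0 h =
        (u₂ : LaurentSeries (kk A))) ∧
    (Ge A (eZero w) (qF (q ^ 2 * M) q) 0 h ∧
      rd A (eZero w) (qF (q ^ 2 * M) q) 0 h = (u₃ : LaurentSeries (kk A))) := by
  obtain ⟨E₁, fE₁, a1, a2, a3⟩ := exists_idem_inf A hA B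
  obtain ⟨E₃, fE₃, c1, c2, c3⟩ := exists_idem_zero A hA B
  obtain ⟨x₁, fx₁, rfl⟩ := exists_fix_lift A M hqM hA u₁
  obtain ⟨x₂, fx₂, rfl⟩ := exists_fix_lift A M hqM hA u₂
  obtain ⟨x₃, fx₃, rfl⟩ := exists_fix_lift A M hqM hA u₃
  rw [NDA_iff] at a1 a2 a3 c1 c2 c3
  have p1 := NDA_iff.1 (aHom_inf hqM A hA x₁)
  have p2 := NDA_iff.1 (aHom_mid hqM A hA B x₁)
  have p3 := NDA_iff.1 (aHom_zero hqM A hA B x₁)
  have q1 := NDA_iff.1 (aHom_inf hqM A hA x₂)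
  have q2 := NDA_iff.1 (aHom_mid hqM A hA B x₂)
  have q3 := NDA_iff.1 (aHom_zero hqM A hA B x₂)
  have r1 := NDA_iff.1 (bHom_inf hqM A hA x₃)
  have r2 := NDA_iff.1 (bHom_mid hqM A hA B x₃)
  have r3 := NDA_iff.1 (bHom_zero hqM A hA B x₃)
  have key : ∀ (e : FB (q ^ 2 * M) →+* LaurentSeries Qb) {α γ s t r : LaurentSeries (kk A)},
      NDA_R A (e E₁) α → NDA_R A (e E₃) γ → NDA_R A (e (aHom (dvdM M q) (x₁ : FB M))) s →
      NDA_R A (e (aHom (dvdM M q) (x₂ : FB M))) t →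
      NDA_R A (e (bHom (q ^ 2) (dvdM' M q) (x₃ : FB M))) r →
      NDA_R A (e (E₁ * aHom (dvdM M q) (x₁ : FB M) + (1 - E₁ - E₃) * aHom (dvdM M q) (x₂ : FB M) +
        E₃ * bHom (q ^ 2) (dvdM' M q) (x₃ : FB M))) (α * s + (1 - α - γ) * t + γ * r) := by
    intro e α γ s t r hα hγ hs ht hr
    rw [map_add, map_add, map_mul, map_mul, map_mul, map_sub, map_sub, map_one]
    exact ((hα.mul hs).add (((NDA_R.one.sub hα).sub hγ).mul ht)).add (hγ.mul hr)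
  refine ⟨E₁ * aHom (dvdM M q) (x₁ : FB M) + (1 - E₁ - E₃) * aHom (dvdM M q) (x₂ : FB M) +
    E₃ * bHom (q ^ 2) (dvdM' M q) (x₃ : FB M), ?_, NDA_iff.2 ?_, NDA_iff.2 ?_, NDA_iff.2 ?_⟩
  · exact ((fE₁.mul (fx₁.aHom _)).add ((((isFix_one _).sub fE₁).sub fE₃).mul (fx₂.aHom _))).add
      (fE₃.mul (fx₃.bHom _ _))
  · exact (key _ a1 c1 p1 q1 r1).congr (by ring)
  · exact (key _ a2 c2 p2 q2 r2).congr (by ring)
  · exact (key _ a3 c3 p3 q3 r3).congr (by ring)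

include hqM hA in
theorem nd_wa (hC : IsModCore A M q w (i 1) H C) (B : BrData M q w ζ i ζ₂) (u₁ u₂ u₃ : FT A M) :
    ∃ h : F0 A (q ^ 2 * M), h ∈ C.R.O ∧ C.v₁.lead 0 h = u₁ ∧ C.v₂.lead 0 h = u₂ ∧
      C.v₃.lead 0 h = u₃ := by
  obtain ⟨h, fh, ⟨g1, r1⟩, ⟨g2, r2⟩, ⟨g3, r3⟩⟩ := exists_approx hqM A hA B u₁ u₂ u₃
  refine ⟨⟨h, fh⟩, ?_, Subtype.ext ?_, Subtype.ext ?_, Subtype.ext ?_⟩
  · rw [hC.mem_O]
    exact ⟨(NDA_iff.1 ⟨g1, r1⟩).1, (NDA_iff.1 ⟨g2, r2⟩).1, (NDA_iff.1 ⟨g3, r3⟩).1⟩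
  · rw [hC.lead₁, Nat.cast_zero]; exact r1
  · rw [hC.lead₂, Nat.cast_zero]; exact r2
  · rw [hC.lead₃, Nat.cast_zero]; exact r3

end

end Fermat.Agent.S36Lib
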