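import Fermat.Agent.S36.ND.Val
import Fermat.Agent.S36.Inst.RatCore
import Fermat.Agent.S36.Mod.ValV1

/-!
# S36, block (NEW), modular side: the fields `val₁ val₂ val₃ rat` of `Core3.ND`
-/

set_option autoImplicit false
set_option synthInstance.maxHeartbeats 400000
set_option linter.unusedSectionVars false
set_option linter.unusedVariables false

open AlgebraicCurve ModularCurve Polynomial
open scoped IntermediateField

namespace Fermat.Agent.S36Lib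

open Fermat.Agent.S18Lib Fermat.Agent.S24Lib Fermat.Agent.S28Lib Fermat.Agent.ESLib
  Fermat.Agent.S34Lib Fermat.Agent.FFLib

noncomputable section

variable {M q : ℕ} [NeZero M] [NeZero q] [hqF : Fact q.Prime]
variable {w : FB (q ^ 2 * M) ≃ₐ[Qb] FB (q ^ 2 * M)} {ζ : Qbˣ}
  {i : ℕ → FB (q ^ 2 * M) →ₐ[Qb] LaurentSeries Qb} {ζ₂ : Qbˣ}
variable (A : ValuationSubring Qb) (hA : A.LiesOverPrime q)
variable {H : FT A M} {Φ : Type} [CommRing Φ] [Algebra (kk A) Φ]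
  {C : Core3 (A0 A) (resK0 A) Qb (F0 A (q ^ 2 * M)) (FB (q ^ 2 * M)) (FT A M) Φ}

include hA in
theorem nd_val₁ (hC : IsModCore A M q w (i 1) H C) (x : F0 A (q ^ 2 * M)) (hx : x ≠ 0) :
    ∃ n : ℤ, C.v₁.IsV n x :=
  C.v₁.exists_isV (eInf (q ^ 2 * M)) (qF (q ^ 2 * M) q) (isBranch_inf A hqF.out hA (q ^ 2 * M))
    hC.π₁_eq hC.mem₁ x hx

include hA in
theorem nd_val₂ (hC : IsModCore A M q w (i 1) H C) (B : BrData M q w ζ i ζ₂)
    (x : F0 A (q ^ 2 * M)) (hx : x ≠ 0) : ∃ n : ℤ, C.v₂.IsV n x :=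
  C.v₂.exists_isV (i 1 : FB (q ^ 2 * M) →+* LaurentSeries Qb) (piF M q)
    (isBranch_mid A hqF.out hA M (ζ ^ 1) (BR_prim B) (B.mid 1 BR_not_dvd_one))
    hC.π₂_eq hC.mem₂ x hx

include hA in
theorem nd_val₃ (hC : IsModCore A M q w (i 1) H C) (B : BrData M q w ζ i ζ₂)
    (x : F0 A (q ^ 2 * M)) (hx : x ≠ 0) : ∃ n : ℤ, C.v₃.IsV n x :=
  C.v₃.exists_isV (eZero w) (qF (q ^ 2 * M) q) (isBranch_zero A hqF.out hA rfl B.al)
    hC.π₃_eq hC.mem₃ x hx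

theorem nd_rat (hC : IsModCore A M q w (i 1) H C) (m : ℕ) (f : F0 A (q ^ 2 * M))
    (D : Divisor Qb (FB (q ^ 2 * M))) (hm : 0 < m) (hf : f ≠ 0)
    (hD : ∀ v : Place Qb (FB (q ^ 2 * M)), v.ord (C.ι f) = m * D v) (a b : ℕ) :
    FFLib.ell (maE Qb (C.ι C.x) a b + D) ≤ Module.finrank (K0 A) (C.U D a b) :=
  hC.rat m hm.ne' f D (fun v => by rw [← hC.ι_eq]; exact hD v) a b

end

end Fermat.Agent.S36Lib
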