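import Fermat.Agent.S36.New.Defs
import Fermat.Agent.S36.New.LiftM
import Fermat.Agent.S36.ND.Pull

/-!
# S36, block (NEW), modular side, (NDL): the field `lift` of `Core3.ND`
(`exists_fix_lift_L` is in `New/LiftM.lean`)
-/

set_option autoImplicit false
set_option synthInstance.maxHeartbeats 400000
set_option linter.unusedSectionVars false
set_option linter.unusedVariables false

open AlgebraicCurve ModularCurve Polynomial
open scoped IntermediateField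

namespace Fermat.Agent.S36Lib

open Fermat.Agent.S18Lib Fermat.Agent.S24Lib Fermat.Agent.S28Lib Fermat.Agent.ESLib
  Fermat.Agent.S34Lib Fermat.Agent.FFLib

noncomputable section

variable {M q : ℕ} [NeZero M] [NeZero q] [hqF : Fact q.Prime] (hqM : ¬ q ∣ M)
variable {w : FB (q ^ 2 * M) ≃ₐ[Qb] FB (q ^ 2 * M)} {ζ : Qbˣ}
  {i : ℕ → FB (q ^ 2 * M) →ₐ[Qb] LaurentSeries Qb} {ζ₂ : Qbˣ}
variable (A : ValuationSubring Qb) (hA : A.LiesOverPrime q)
variable {H : FT A M} {Φ : Type} [CommRing Φ] [Algebra (kk A) Φ]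
  {C : Core3 (A0 A) (resK0 A) Qb (F0 A (q ^ 2 * M)) (FB (q ^ 2 * M)) (FT A M) Φ}

include hqM hA in
theorem nd_lift (hC : IsModCore A M q w (i 1) H C) (B : BrData M q w ζ i ζ₂)
    (hbase : 2 ∣ M ∨ 3 ∣ M) (n : ℕ) (u : FT A M)
    (hu : u ∈ riemannRochSpace (maE (kk A) C.x₁ n 0)) :
    ∃ (n' : ℕ) (y : F0 A (q ^ 2 * M)), y ∈ C.U 0 n' 0 ∧ y ∈ C.R.O ∧ C.v₁.lead 0 y = u ∧
      C.v₂.lead 0 y = u := by
  rw [hC.x₁_eq, maE, zero_smul, add_zero] at hu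
  obtain ⟨n', x, hfix, hxL, hxr⟩ := exists_fix_lift_L M hqM A hA hbase n u hu
  obtain ⟨g1, r1⟩ := aHom_inf (q := q) hqM A hA x
  obtain ⟨g2, r2⟩ := aHom_mid hqM A hA B x
  obtain ⟨g3, -⟩ := aHom_zero hqM A hA B x
  let y : F0 A (q ^ 2 * M) := ⟨aHom (dvdM M q) (x : FB M), hfix.aHom (dvdM M q)⟩
  refine ⟨n', y, ?_, ?_, ?_, ?_⟩
  · rw [hC.mem_U, add_zero, maE, zero_smul, add_zero]
    exact aHom_mem_L n' (x : FB M) hxL
  · rw [C.mem_O]
    have h1 := (hC.ge₁ 0 y).2 (by exact_mod_cast g1)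
    have h2 := (hC.ge₂ 0 y).2 (by exact_mod_cast g2)
    have h3 := (hC.ge₃ 0 y).2 (by exact_mod_cast g3)
    unfold DVal.ge at h1 h2 h3
    rw [pow_zero, mul_one] at h1 h2 h3
    exact ⟨h1, h2, h3⟩
  · apply Subtype.ext
    rw [hC.lead₁, ← hxr, ← r1]
    rfl
  · apply Subtype.ext
    rw [hC.lead₂, ← hxr, ← r2]
    rfl

end

end Fermat.Agent.S36Lib
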