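import Fermat.Agent.S36.New.Defs
import Fermat.Agent.S36.Inst.Defs
import Fermat.Agent.S36.Mod.BrDefs
import Fermat.Agent.S36.Mod.ValFix
import Fermat.Agent.S36.Mod.ValApi
import Fermat.Agent.S36.Mod.ValG
import Fermat.Agent.S36.Mod.ValV1
import Fermat.Agent.S36.Mod.ResField
import Fermat.Agent.S36.Mod.EtaL
import Fermat.Agent.S36.ALCompat

/-!
# S36, block (NEW), modular side, leaf (NDW): the involution `w_{q²}` on `F₀`
-/

set_option autoImplicit false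
set_option synthInstance.maxHeartbeats 400000
set_option linter.unusedSectionVars false
set_option linter.unusedVariables false

open AlgebraicCurve ModularCurve Polynomial
open scoped IntermediateField

namespace Fermat.Agent.S36Lib

open Fermat.Agent.S18Lib Fermat.Agent.S24Lib Fermat.Agent.S28Lib Fermat.Agent.ESLib
  Fermat.Agent.S34Lib Fermat.Agent.FFLib

noncomputable section

variable {M q : ℕ} [NeZero M] [NeZero q] [hqF : Fact q.Prime] (hqM : ¬ q ∣ M)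
variable {w : FB (q ^ 2 * M) ≃ₐ[Qb] FB (q ^ 2 * M)} {ζ : Qbˣ}
  {i : ℕ → FB (q ^ 2 * M) →ₐ[Qb] LaurentSeries Qb} {ζ₂ : Qbˣ}
variable (A : ValuationSubring Qb) (hA : A.LiesOverPrime q)
variable {H : FT A M} {Φ : Type} [CommRing Φ] [Algebra (kk A) Φ]
  {C : Core3 (A0 A) (resK0 A) Qb (F0 A (q ^ 2 * M)) (FB (q ^ 2 * M)) (FT A M) Φ}

/-- `w` on `F₀` -/
def WF0 (A : ValuationSubring Qb) (hw : IsAL (q ^ 2 * M) (q ^ 2) M w) :
    F0 A (q ^ 2 * M) →+* F0 A (q ^ 2 * M) :=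
  RingHom.codRestrict ((w : FB (q ^ 2 * M) →+* FB (q ^ 2 * M)).comp (F0 A (q ^ 2 * M)).subtype)
    (F0 A (q ^ 2 * M)) (fun x => IsFix.al hw x.2)

theorem coe_WF0 (hw : IsAL (q ^ 2 * M) (q ^ 2) M w) (x : F0 A (q ^ 2 * M)) :
    ((WF0 A hw x : F0 A (q ^ 2 * M)) : FB (q ^ 2 * M)) = w (x : FB (q ^ 2 * M)) := rfl

theorem nd_W_W (hw : IsAL (q ^ 2 * M) (q ^ 2) M w) (x : F0 A (q ^ 2 * M)) :
    WF0 A hw (WF0 A hw x) = x := by
  apply Subtype.ext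
  rw [coe_WF0, coe_WF0, hw.invol]

theorem nd_W_const (hw : IsAL (q ^ 2 * M) (q ^ 2) M w) (c : K0 A) :
    WF0 A hw (algebraMap (K0 A) (F0 A (q ^ 2 * M)) c) = algebraMap (K0 A) (F0 A (q ^ 2 * M)) c := by
  apply Subtype.ext
  rw [coe_WF0, coe_algebraMap_F0, AlgEquiv.commutes]

theorem NDW_al_qF (k : ℤ) (x : FB (q ^ 2 * M)) :
    w (qF (q ^ 2 * M) q ^ k * x) = qF (q ^ 2 * M) q ^ k * w x := by
  rw [map_mul, map_zpow₀, qF, AlgEquiv.commutes]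

theorem NDW_ge_eInf_al (β : ℤ) (g : FB (q ^ 2 * M)) :
    Ge A (eInf (q ^ 2 * M)) (qF (q ^ 2 * M) q) β (w g) ↔
      Ge A (eZero w) (qF (q ^ 2 * M) q) β g := by
  unfold Ge
  rw [eZero_apply, NDW_al_qF, eInf_apply]

theorem NDW_rd_eInf_al (β : ℤ) (g : FB (q ^ 2 * M)) :
    rd A (eInf (q ^ 2 * M)) (qF (q ^ 2 * M) q) β (w g) =
      rd A (eZero w) (qF (q ^ 2 * M) q) β g := by
  by_cases h : Ge A (eZero w) (qF (q ^ 2 * M) q) β g
  · have h' := (NDW_ge_eInf_al A β g).2 h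
    rw [rd_of_ge h, rd_of_ge h']
    congr 1
    apply Subtype.ext
    show eInf _ _ = eZero w _
    rw [eZero_apply, NDW_al_qF, eInf_apply]
  · have h' : ¬ Ge A (eInf (q ^ 2 * M)) (qF (q ^ 2 * M) q) β (w g) :=
      fun h' => h ((NDW_ge_eInf_al A β g).1 h')
    rw [rd, rd, dif_neg h, dif_neg h']

theorem nd_W_ge₁ (hC : IsModCore A M q w (i 1) H C) (B : BrData M q w ζ i ζ₂) (n : ℕ)
    (x : F0 A (q ^ 2 * M)) : C.v₁.ge n (WF0 A B.al x) ↔ C.v₃.ge n x := by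
  rw [hC.ge₁, hC.ge₃, coe_WF0, NDW_ge_eInf_al]

theorem nd_W_lead₁ (hC : IsModCore A M q w (i 1) H C) (B : BrData M q w ζ i ζ₂) (n : ℕ)
    (x : F0 A (q ^ 2 * M)) : C.v₁.lead n (WF0 A B.al x) = C.v₃.lead n x := by
  apply Subtype.ext
  rw [hC.lead₁, hC.lead₃, coe_WF0, NDW_rd_eInf_al]

theorem NDW_al_JF_one (hw : IsAL (q ^ 2 * M) (q ^ 2) M w) :
    w (JF (q ^ 2 * M) 1 (one_dvd _)) = JF (q ^ 2 * M) (q ^ 2) (dvd_mul_right _ _) := by
  apply Subtype.ext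
  have h := ALC_gen hw (JF (q ^ 2 * M) 1 (one_dvd _)) 1 1 (one_dvd _) (one_dvd _)
    (by rw [mul_one]; rfl)
  rw [h, Nat.div_one, mul_one]
  rfl

theorem NDW_al_JF_sq (hw : IsAL (q ^ 2 * M) (q ^ 2) M w) :
    w (JF (q ^ 2 * M) (q ^ 2) (dvd_mul_right _ _)) = JF (q ^ 2 * M) 1 (one_dvd _) := by
  rw [← NDW_al_JF_one hw, hw.invol]

/-- `w (j_{q²} - j) = - (j_{q²} - j)` -/
theorem al_piF (hw : IsAL (q ^ 2 * M) (q ^ 2) M w) : w (piF M q) = - piF M q := by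
  rw [piF, map_sub, NDW_al_JF_one hw, NDW_al_JF_sq hw, neg_sub]

theorem NDW_not_dvd_one : ¬ q ∣ 1 := fun h => hqF.out.one_lt.ne' (Nat.dvd_one.1 h)

theorem NDW_not_dvd_pred : ¬ q ∣ q - 1 :=
  Nat.not_dvd_of_pos_of_lt (Nat.sub_pos_of_lt hqF.out.one_lt)
    (Nat.sub_lt hqF.out.pos Nat.one_pos)

include hA in
/-- the middle branch and `w` on integral elements -/
theorem NDW_mid (B : BrData M q w ζ i ζ₂) (y : FB (q ^ 2 * M)) (hy : IsFix A (q ^ 2 * M) y)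
    (h : i 1 y ∈ gRing A) : ∃ h' : i 1 (w y) ∈ gRing A, gRed A ⟨_, h'⟩ = gRed A ⟨_, h⟩ := by
  have hq := hqF.out
  have h1 := B.mid 1 NDW_not_dvd_one
  have h2 := B.mid (q - 1) NDW_not_dvd_pred
  have hz : (ζ ^ 1) ^ q = 1 := by rw [pow_one]; exact B.prim.pow_eq_one
  have hinv : ζ ^ (q - 1) = (ζ ^ 1)⁻¹ := by
    rw [pow_one]
    apply eq_inv_of_mul_eq_one_left
    rw [← pow_succ, Nat.sub_add_cancel hq.pos, B.prim.pow_eq_one]
  rw [hinv] at h2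
  have h3 := IsIMid.comp_wQ hq hz h1 h2 w B.al.gen y
  obtain ⟨h4, h5⟩ := V2_gal A hA B hy NDW_not_dvd_one NDW_not_dvd_pred ⟨h, rfl⟩
  have hp : IsPrimitiveRoot (ζ ^ 1) q := by rw [pow_one]; exact B.prim
  have hU : IsU A ((ζ ^ 1 : Qbˣ) : Qb) := V1_isU_zeta A hq _ hp
  have hm : ((ζ ^ 1 : Qbˣ) : Qb) - 1 ∈ A.nonunits :=
    K0d_zeta_sub_one_mem A hq hA (V1_zeta _ hp)
  exact V2_transfer h3 ⟨twist_mem_gRing A _ hU h4, by rw [gRed_twist A _ hU hm h4, h5]⟩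

include hA in
/-- the middle branch and `w`, in `Ge`/`rd` form -/
theorem mid_al (B : BrData M q w ζ i ζ₂) (n : ℤ) (x : FB (q ^ 2 * M))
    (hx : IsFix A (q ^ 2 * M) x)
    (h : Ge A (i 1 : FB (q ^ 2 * M) →+* LaurentSeries Qb) (piF M q) n x) :
    Ge A (i 1 : FB (q ^ 2 * M) →+* LaurentSeries Qb) (piF M q) n (w x) ∧
    rd A (i 1 : FB (q ^ 2 * M) →+* LaurentSeries Qb) (piF M q) n (w x) =
      (-1) ^ n * rd A (i 1 : FB (q ^ 2 * M) →+* LaurentSeries Qb) (piF M q) n x := by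
  set y : FB (q ^ 2 * M) := piF M q ^ (-n) * x with hy
  have hyfix : IsFix A (q ^ 2 * M) y := ((isFix_piF M q).zpow _).mul hx
  obtain ⟨h1, h2⟩ := NDW_mid A hA B y hyfix h
  have h3 : piF M q ^ (-n) * w x = (-1) ^ n * w y := by
    rw [hy, map_mul, map_zpow₀, al_piF B.al, ← mul_assoc, neg_eq_neg_one_mul (piF M q),
      mul_zpow, ← mul_assoc, ← zpow_add₀ (by norm_num : (-1 : FB (q ^ 2 * M)) ≠ 0)]
    simp
  have hs : ((-1 : LaurentSeries Qb) ^ n) ∈ gRing A := by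
    rcases Int.even_or_odd n with he | ho
    · rw [he.neg_one_zpow]; exact one_mem _
    · rw [ho.neg_one_zpow]; exact neg_mem (one_mem _)
  have hsr : gRed A ⟨(-1 : LaurentSeries Qb) ^ n, hs⟩ = (-1) ^ n := by
    rcases Int.even_or_odd n with he | ho
    · have : (⟨(-1 : LaurentSeries Qb) ^ n, hs⟩ : gRing A) = 1 :=
        Subtype.ext he.neg_one_zpow
      rw [this, map_one, he.neg_one_zpow]
    · have : (⟨(-1 : LaurentSeries Qb) ^ n, hs⟩ : gRing A) = -1 :=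
        Subtype.ext ho.neg_one_zpow
      rw [this, map_neg, map_one, ho.neg_one_zpow]
  have h4 : (i 1 : FB (q ^ 2 * M) →+* LaurentSeries Qb) (piF M q ^ (-n) * w x) =
      (-1) ^ n * i 1 (w y) := by
    rw [h3, map_mul, map_zpow₀, map_neg, map_one]
    rfl
  have hge : Ge A (i 1 : FB (q ^ 2 * M) →+* LaurentSeries Qb) (piF M q) n (w x) := by
    unfold Ge
    rw [h4]
    exact mul_mem hs h1
  refine ⟨hge, ?_⟩
  rw [rd_of_ge hge, rd_of_ge h]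
  have h5 : (⟨(i 1 : FB (q ^ 2 * M) →+* LaurentSeries Qb) (piF M q ^ (-n) * w x), hge⟩ : gRing A) =
      ⟨(-1 : LaurentSeries Qb) ^ n, hs⟩ * ⟨i 1 (w y), h1⟩ := Subtype.ext h4
  rw [h5, map_mul, hsr, h2]
  rfl

include hA in
theorem nd_W_ge₂ (hC : IsModCore A M q w (i 1) H C) (B : BrData M q w ζ i ζ₂) (n : ℕ)
    (x : F0 A (q ^ 2 * M)) (h : C.v₂.ge n x) : C.v₂.ge n (WF0 A B.al x) := by
  rw [hC.ge₂] at h ⊢
  exact (mid_al A hA B n _ (mem_F0.1 x.2) h).1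

include hA in
theorem nd_W_lead₂ (hC : IsModCore A M q w (i 1) H C) (B : BrData M q w ζ i ζ₂) (n : ℕ)
    (x : F0 A (q ^ 2 * M)) (h : C.v₂.ge n x) :
    C.v₂.lead n (WF0 A B.al x) = (-1) ^ n * C.v₂.lead n x := by
  rw [hC.ge₂] at h
  apply Subtype.ext
  rw [hC.lead₂, coe_WF0, (mid_al A hA B n _ (mem_F0.1 x.2) h).2, zpow_natCast]
  push_cast
  rw [hC.lead₂]

/-- `w` and `L(n J)` -/
theorem al_mem_L (hw : IsAL (q ^ 2 * M) (q ^ 2) M w) (n : ℕ) (x : FB (q ^ 2 * M))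
    (hx : x ∈ riemannRochSpace (n • poleDiv Qb (JF (q ^ 2 * M) 1 (one_dvd _)))) :
    w x ∈ riemannRochSpace ((n * q ^ 2) • poleDiv Qb (JF (q ^ 2 * M) 1 (one_dvd _))) := by
  have hFF := isFF_FB (q ^ 2 * M)
  rw [mem_L_iff] at hx ⊢
  intro v
  have h1 := hx (w⁻¹ • v)
  have hv : v = w • (w⁻¹ • v) := by rw [smul_smul, mul_inv_cancel, one_smul]
  rcases h1 with h1 | h1
  · left; rw [h1, map_zero]
  · right
    have h2 : v.ord (w x) = (w⁻¹ • v).ord x := by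
      conv_lhs => rw [hv]
      exact Place.ord_smul w _ x
    have h3 : v.ord (JF (q ^ 2 * M) (q ^ 2) (dvd_mul_right _ _)) =
        (w⁻¹ • v).ord (JF (q ^ 2 * M) 1 (one_dvd _)) := by
      conv_lhs => rw [hv, ← NDW_al_JF_one hw]
      exact Place.ord_smul w _ _
    have h4 := poleDiv_JF_le (q ^ 2 * M) (q ^ 2) (dvd_mul_right _ _) v
    rw [Finsupp.smul_apply, poleDiv_apply hFF, poleDiv_apply hFF, h3] at h4
    rw [Finsupp.smul_apply, poleDiv_apply hFF] at h1 ⊢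
    rw [h2]
    simp only [nsmul_eq_mul] at h1 h4 ⊢
    push_cast at h4 ⊢
    have hn : (0 : ℤ) ≤ n := by positivity
    nlinarith [mul_le_mul_of_nonneg_left h4 hn]

theorem nd_W_U (hC : IsModCore A M q w (i 1) H C) (B : BrData M q w ζ i ζ₂) (n : ℕ)
    (x : F0 A (q ^ 2 * M)) (hx : x ∈ C.U 0 n 0) : ∃ n' : ℕ, WF0 A B.al x ∈ C.U 0 n' 0 := by
  refine ⟨n * q ^ 2, ?_⟩
  rw [hC.mem_U] at hx ⊢
  rw [add_zero, maE, zero_smul, add_zero] at hx ⊢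
  exact al_mem_L B.al n _ hx

end

end Fermat.Agent.S36Lib
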