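import Fermat.Agent.S36.New.Defs
import Fermat.Agent.S36.New.ModDefs
import Fermat.Agent.S36.Inst.Defs
import Fermat.Agent.S36.New.ModNA3
import Fermat.Agent.S36.ND.W

/-!
# S36, block (NEW), modular side, leaf (NDNA): the fields `NA_*`, `ρ`, `root_desc` of `Core3.ND`
-/

set_option autoImplicit false
set_option synthInstance.maxHeartbeats 400000
set_option linter.unusedSectionVars false
set_option linter.unusedVariables false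

open AlgebraicCurve ModularCurve Polynomial
open scoped IntermediateField

namespace Fermat.Agent.S36Lib

open Fermat.Agent.S18Lib Fermat.Agent.S24Lib Fermat.Agent.S28Lib Fermat.Agent.ESLib
  Fermat.Agent.S34Lib Fermat.Agent.FFLib

noncomputable section

variable {M q : ℕ} [NeZero M] [NeZero q] [hqF : Fact q.Prime] (hqM : ¬ q ∣ M)
variable {w : FB (q ^ 2 * M) ≃ₐ[Qb] FB (q ^ 2 * M)} {ζ : Qbˣ}
  {i : ℕ → FB (q ^ 2 * M) →ₐ[Qb] LaurentSeries Qb} {ζ₂ : Qbˣ}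
variable (A : ValuationSubring Qb) (hA : A.LiesOverPrime q)
variable {H : FT A M} {Φ : Type} [CommRing Φ] [Algebra (kk A) Φ]
  {C : Core3 (A0 A) (resK0 A) Qb (F0 A (q ^ 2 * M)) (FB (q ^ 2 * M)) (FT A M) Φ}

theorem NAf_eq_NAm : NAf M q = NAm M q := rfl

include hqM in
theorem isFix_NAf (x : FB (q ^ 2 * M)) (hx : IsFix A (q ^ 2 * M) x) :
    IsFix A (q ^ 2 * M) (NAf M q x) := isFix_NAm hqF.out hqM hx

theorem coe_NAF0' (x : F0 A (q ^ 2 * M)) :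
    ((NAF0 A (isFix_NAf hqM A) x : F0 A (q ^ 2 * M)) : FB (q ^ 2 * M)) =
      NAm M q (x : FB (q ^ 2 * M)) := rfl

theorem NDNA_e (hC : IsModCore A M q w (i 1) H C) : C.e + 1 = q := by
  rw [hC.e_eq]
  have := hqF.out.pos
  omega

theorem nd_NA_const (hC : IsModCore A M q w (i 1) H C) (c : K0 A) :
    NAF0 A (isFix_NAf hqM A) (algebraMap (K0 A) (F0 A (q ^ 2 * M)) c) =
      algebraMap (K0 A) (F0 A (q ^ 2 * M)) (c ^ (C.e + 1)) := by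
  apply Subtype.ext
  rw [coe_NAF0' hqM, coe_algebraMap_F0, coe_algebraMap_F0, NAm_const hqF.out, NDNA_e A hC]
  rfl

include hA in
theorem nd_NA_mem₂ (hC : IsModCore A M q w (i 1) H C) (B : BrData M q w ζ i ζ₂)
    (x : F0 A (q ^ 2 * M)) (hx : x ∈ C.R.O) : NAF0 A (isFix_NAf hqM A) x ∈ C.v₂.O := by
  rw [hC.mem₂, coe_NAF0' hqM]
  obtain ⟨h1, h2, -⟩ := (hC.mem_O x).1 hx
  exact NAm_mem_mid hqF.out hA B x.2 h1 h2

include hA in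
theorem nd_NA_lead₃ (hC : IsModCore A M q w (i 1) H C) (B : BrData M q w ζ i ζ₂) (b : ℕ)
    (x : F0 A (q ^ 2 * M)) (hx : C.v₃.ge b x) :
    C.v₃.ge ((C.e + 1) * b) (NAF0 A (isFix_NAf hqM A) x) ∧
      C.v₃.lead ((C.e + 1) * b) (NAF0 A (isFix_NAf hqM A) x) = C.v₃.lead b x ^ (C.e + 1) := by
  rw [NDNA_e A hC]
  obtain ⟨h1, h2⟩ := NAm_zero_lead hqF.out hqM hA B (b : ℤ) ((hC.ge₃ b x).1 hx)
  have e : (((q * b : ℕ)) : ℤ) = (q : ℤ) * b := by push_cast; ring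
  refine ⟨?_, ?_⟩
  · rw [hC.ge₃, coe_NAF0' hqM, e]
    exact h1
  · apply Subtype.ext
    rw [hC.lead₃, coe_NAF0' hqM, e, h2]
    push_cast
    rw [hC.lead₃]

theorem nd_NA_U (hC : IsModCore A M q w (i 1) H C) (n : ℕ) (x : F0 A (q ^ 2 * M))
    (hx : x ∈ C.U 0 n 0) : ∃ n' : ℕ, NAF0 A (isFix_NAf hqM A) x ∈ C.U 0 n' 0 := by
  rw [hC.mem_U, add_zero, maE, zero_smul, add_zero] at hx
  obtain ⟨n', hn'⟩ := NAm_mem_L hqF.out hx
  refine ⟨n', ?_⟩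
  rw [hC.mem_U, add_zero, maE, zero_smul, add_zero]
  exact hn'

theorem nd_root_desc (hC : IsModCore A M q w (i 1) H C) (m : ℕ) (x : F0 A (q ^ 2 * M))
    (G : FB (q ^ 2 * M)) (hm : 0 < m) (hx : x ≠ 0) (hG : G ^ m = C.ι x) :
    ∃ (c : Qb) (G₁ : F0 A (q ^ 2 * M)), G = algebraMap Qb (FB (q ^ 2 * M)) c * C.ι G₁ := by
  obtain ⟨c, g₁, hg₁, e⟩ := exists_isFix_of_pow A (q ^ 2 * M) hm.ne' (g := G) (by
    rw [hG, hC.ι_eq]; exact x.2)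
  exact ⟨c, ⟨g₁, hg₁⟩, by rw [hC.ι_eq]; exact e⟩

include hA in
theorem nd_exists_rho (hC : IsModCore A M q w (i 1) H C) (B : BrData M q w ζ i ζ₂) :
    ∃ ρ : FT A M, ρ ≠ 0 ∧ ∀ (a c : ℕ) (x : F0 A (q ^ 2 * M)), C.v₁.ge a x → C.v₂.ge c x →
      C.v₁.ge (a + c) (NAF0 A (isFix_NAf hqM A) x) ∧
        C.v₁.lead (a + c) (NAF0 A (isFix_NAf hqM A) x) = C.v₁.lead a x * C.v₂.lead c x ^ C.e * ρ ^ c := by
  obtain ⟨ρL, hρ0, hρ⟩ := exists_rho (A := A) hqF.out hA B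
  have h1 : ¬ q ∣ 1 := fun h => hqF.out.one_lt.ne' (Nat.dvd_one.1 h)
  have hbr := isBranch_inf A hqF.out hA (q ^ 2 * M)
  have hbm := isBranch_mid A hqF.out hA M (ζ ^ 1) (by rw [pow_one]; exact B.prim) (B.mid 1 h1)
  obtain ⟨a₀, hge, hne⟩ := hbr.disc (piF M q) hbm.ne (isFix_piF M q)
  have h0 : Ge A (eInf (q ^ 2 * M)) (qF (q ^ 2 * M) q) 0 (piF M q) := by
    have e : eInf (q ^ 2 * M) (qF (q ^ 2 * M) q ^ (-(0 : ℤ)) * piF M q) =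
        Wq_J (q ^ 2) - Wq_J 1 := by
      rw [neg_zero, zpow_zero, one_mul]
      rfl
    refine API_ge_of_eq ?_ e
    rw [Wq_J_eq_cE A, Wq_J_eq_cE A]
    exact (gRing A).sub_mem (cE_mem_gRing A _) (cE_mem_gRing A _)
  have ha₀ : 0 ≤ a₀ := by
    by_contra hlt
    exact hne (hbr.rd_eq_zero_of_lt (not_le.1 hlt) h0)
  lift a₀ to ℕ using ha₀
  have hmid : Ge A (i 1 : FB (q ^ 2 * M) →+* LaurentSeries Qb) (piF M q) ((1 : ℕ) : ℤ)
      (piF M q) := by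
    have := ge_unif_zpow (A := A) (e := (i 1 : FB (q ^ 2 * M) →+* LaurentSeries Qb)) hbm.ne 1
    rwa [zpow_one] at this
  have hmidr : rd A (i 1 : FB (q ^ 2 * M) →+* LaurentSeries Qb) (piF M q) ((1 : ℕ) : ℤ)
      (piF M q) = 1 := by
    have := rd_unif_zpow (A := A) (e := (i 1 : FB (q ^ 2 * M) →+* LaurentSeries Qb)) hbm.ne 1
    rwa [zpow_one] at this
  obtain ⟨-, r1⟩ := hρ a₀ 1 (piF M q) (isFix_piF M q) hge hmid
  rw [hmidr, one_pow, mul_one, pow_one] at r1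
  set π₀ : F0 A (q ^ 2 * M) := ⟨piF M q, isFix_piF M q⟩ with hπ₀
  set ρ : FT A M := C.v₁.lead (a₀ + 1) (NAF0 A (isFix_NAf hqM A) π₀) / C.v₁.lead a₀ π₀ with hρdef
  have hcoe : ((ρ : FT A M) : LaurentSeries (kk A)) = ρL := by
    rw [hρdef]
    push_cast
    rw [hC.lead₁, hC.lead₁, coe_NAF0' hqM]
    show rd A _ _ _ (NAm M q (piF M q)) / rd A _ _ _ (piF M q) = ρL
    rw [r1, mul_div_cancel_left₀ _ hne]
  refine ⟨ρ, fun h => hρ0 (by rw [← hcoe, h]; rfl), fun a c x hx₁ hx₂ => ?_⟩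
  obtain ⟨g, r⟩ := hρ a c (x : FB (q ^ 2 * M)) x.2 ((hC.ge₁ a x).1 hx₁) ((hC.ge₂ c x).1 hx₂)
  refine ⟨by rw [hC.ge₁, coe_NAF0' hqM]; exact g, ?_⟩
  apply Subtype.ext
  rw [hC.lead₁, coe_NAF0' hqM, r]
  push_cast
  rw [hC.lead₁, hC.lead₂, hcoe, hC.e_eq]

/-- `W ∘ NA ∘ W = bHom q ∘ nrm (bHom q)` -/
theorem nd_NB (B : BrData M q w ζ i ζ₂) (x : F0 A (q ^ 2 * M)) :
    ((WF0 A B.al (NAF0 A (isFix_NAf hqM A) (WF0 A B.al x)) : F0 A (q ^ 2 * M)) : FB (q ^ 2 * M)) =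
      bHom q (dvd_of_eq (NA_h M q))
        (nrm (bHom q (dvd_of_eq (NA_h M q))) (x : FB (q ^ 2 * M))) := by
  rw [coe_WF0, coe_NAF0' hqM, coe_WF0, w_NAm_w hqF.out hqM B]

include hqM in
/-- `NBf = w ∘ NAf ∘ w` -/
theorem NBf_eq (B : BrData M q w ζ i ζ₂) (x : FB (q ^ 2 * M)) :
    NBf M q x = w (NAf M q (w x)) :=
  (w_NAm_w hqF.out hqM B x).symm

end

end Fermat.Agent.S36Lib
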