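import Fermat.Agent.S36.New.Defs
import Fermat.Agent.S36.Inst.Defs
import Fermat.Agent.S36.Inst.BranchGen
import Fermat.Agent.S36.Mod.BrDefs
import Fermat.Agent.S36.Mod.ValApi
import Fermat.Agent.S36.K0a

/-!
# S36, block (NEW), modular side, leaf (NDV): valuations
-/

set_option autoImplicit false
set_option synthInstance.maxHeartbeats 400000
set_option linter.unusedSectionVars false
set_option linter.unusedVariables false

open AlgebraicCurve ModularCurve Polynomial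
open scoped IntermediateField

namespace Fermat.Agent.S36Lib

open Fermat.Agent.S18Lib Fermat.Agent.S24Lib Fermat.Agent.S28Lib Fermat.Agent.ESLib
  Fermat.Agent.S34Lib Fermat.Agent.FFLib

noncomputable section

theorem NDV_coe {A : ValuationSubring Qb} {N : ℕ} {κ : Type*} [Field κ]
    (v : DVal (F0 A N) κ) (ϖ : FB N) (hπ : (v.π : FB N) = ϖ) (n : ℤ) (x : F0 A N) :
    ((x * v.π ^ (-n) : F0 A N) : FB N) = ϖ ^ (-n) * (x : FB N) := by
  have h : ((v.π ^ (-n) : F0 A N) : FB N) = (v.π : FB N) ^ (-n) :=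
    map_zpow₀ (F0 A N).subtype v.π (-n)
  rw [Subfield.coe_mul, h, hπ, mul_comm]

/-- the dictionary for `IsV` -/
theorem DVal.isV_iff_isGU {A : ValuationSubring Qb} {N : ℕ} {κ : Type*} [Field κ]
    (v : DVal (F0 A N) κ) (e : FB N →+* LaurentSeries Qb) (ϖ : FB N)
    (hπ : (v.π : FB N) = ϖ) (hmem : ∀ x : F0 A N, x ∈ v.O ↔ e (x : FB N) ∈ gRing A) (n : ℤ)
    (x : F0 A N) (hx : x ≠ 0) : v.IsV n x ↔ IsGU A (e (ϖ ^ (-n) * (x : FB N))) := by
  have h1 := NDV_coe v ϖ hπ n x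
  have h2 : (((x * v.π ^ (-n))⁻¹ : F0 A N) : FB N) = (ϖ ^ (-n) * (x : FB N))⁻¹ := by
    rw [← h1]; push_cast; rfl
  unfold DVal.IsV
  rw [hmem, hmem, h1, h2, map_inv₀]
  constructor
  · rintro ⟨-, ha, hb⟩
    refine ⟨ha, fun h0 => ?_⟩
    have h3 := gRed_inv ha hb
    have hne : e (ϖ ^ (-n) * (x : FB N)) ≠ 0 := by
      rw [← h1]
      intro h
      have h4 := (map_eq_zero e).1 h
      have h5 : (x * v.π ^ (-n) : F0 A N) = 0 := Subtype.ext h4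
      rcases mul_eq_zero.1 h5 with h6 | h6
      · exact hx h6
      · exact zpow_ne_zero _ v.π_ne h6
    have h4 : (⟨e (ϖ ^ (-n) * (x : FB N)), ha⟩ : gRing A) *
        ⟨(e (ϖ ^ (-n) * (x : FB N)))⁻¹, hb⟩ = 1 := by
      apply Subtype.ext
      exact mul_inv_cancel₀ hne
    have h5 := congrArg (gRed A) h4
    rw [map_mul, h0, zero_mul, map_one] at h5
    exact zero_ne_one h5
  · intro h
    exact ⟨hx, h.1, h.inv.1⟩

/-- a branch gives valuations -/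
theorem DVal.exists_isV {A : ValuationSubring Qb} {N : ℕ} {κ : Type*} [Field κ]
    (v : DVal (F0 A N) κ) (e : FB N →+* LaurentSeries Qb) (ϖ : FB N) (hB : IsBranch A e ϖ)
    (hπ : (v.π : FB N) = ϖ) (hmem : ∀ x : F0 A N, x ∈ v.O ↔ e (x : FB N) ∈ gRing A)
    (x : F0 A N) (hx : x ≠ 0) : ∃ n : ℤ, v.IsV n x := by
  have hx' : (x : FB N) ≠ 0 := fun h => hx (Subtype.ext h)
  obtain ⟨a, ha⟩ := hB.disc (x : FB N) hx' (mem_F0.1 x.2)
  exact ⟨a, (v.isV_iff_isGU e ϖ hπ hmem a x hx).2 (ge_and_rd_ne_iff.1 ha)⟩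

theorem nd_unif (A : ValuationSubring Qb) {q : ℕ} (hq : q.Prime) (hA : A.LiesOverPrime q)
    (c : K0 A) (hc : c ≠ 0) :
    ∃ t : ℤ, c * (q : K0 A) ^ (-t) ∈ A0 A ∧ (c * (q : K0 A) ^ (-t))⁻¹ ∈ A0 A := by
  have hc' : (c : Qb) ≠ 0 := fun h => hc (Subtype.ext h)
  have hq0 : (q : Qb) ≠ 0 := by exact_mod_cast hq.ne_zero
  obtain ⟨n, u, -, hu, hcu⟩ := exists_zpow_mul_unit A hq hA c.2 hc'
  have h1 : ((c * (q : K0 A) ^ (-n) : K0 A) : Qb) = u := by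
    have h : (((q : K0 A) ^ (-n) : K0 A) : Qb) = (q : Qb) ^ (-n) := by
      rw [← map_natCast (algebraMap (K0 A) Qb) q]
      exact map_zpow₀ (algebraMap (K0 A) Qb) (q : K0 A) (-n)
    rw [IntermediateField.coe_mul, h, hcu, zpow_neg]
    field_simp
  refine ⟨n, ?_, ?_⟩
  · rw [mem_A0_iff, h1]; exact hu.1
  · rw [mem_A0_iff, IntermediateField.coe_inv, h1]; exact hu.2

/-! ## the setting -/

variable {M q : ℕ} [NeZero M] [NeZero q] [hqF : Fact q.Prime] (hqM : ¬ q ∣ M)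
variable {w : FB (q ^ 2 * M) ≃ₐ[Qb] FB (q ^ 2 * M)} {ζ : Qbˣ}
  {i : ℕ → FB (q ^ 2 * M) →ₐ[Qb] LaurentSeries Qb} {ζ₂ : Qbˣ}
variable (A : ValuationSubring Qb) (hA : A.LiesOverPrime q)
variable {H : FT A M} {Φ : Type} [CommRing Φ] [Algebra (kk A) Φ]
  {C : Core3 (A0 A) (resK0 A) Qb (F0 A (q ^ 2 * M)) (FB (q ^ 2 * M)) (FT A M) Φ}

theorem NDV_coe_q (N : ℕ) :
    ((algebraMap (K0 A) (F0 A N) (q : K0 A) : F0 A N) : FB N) = qF N q := by
  rw [coe_algebraMap_F0, qF]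
  push_cast
  rfl

theorem nd_π₁ (hC : IsModCore A M q w (i 1) H C) :
    C.v₁.π = algebraMap (K0 A) (F0 A (q ^ 2 * M)) (q : K0 A) := by
  apply Subtype.ext
  rw [hC.π₁_eq, NDV_coe_q]

theorem nd_π₃ (hC : IsModCore A M q w (i 1) H C) :
    C.v₃.π = algebraMap (K0 A) (F0 A (q ^ 2 * M)) (q : K0 A) := by
  apply Subtype.ext
  rw [hC.π₃_eq, NDV_coe_q]

include hA in
theorem nd_val₂_ϖ (hC : IsModCore A M q w (i 1) H C) (B : BrData M q w ζ i ζ₂) :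
    C.v₂.IsV C.e (algebraMap (K0 A) (F0 A (q ^ 2 * M)) (q : K0 A)) := by
  have hq0 : (q : K0 A) ≠ 0 := by exact_mod_cast hqF.out.ne_zero
  have hne : algebraMap (K0 A) (F0 A (q ^ 2 * M)) (q : K0 A) ≠ 0 := by
    rw [Ne, map_eq_zero]; exact hq0
  rw [C.v₂.isV_iff_isGU (i 1 : FB (q ^ 2 * M) →+* LaurentSeries Qb) (piF M q) hC.π₂_eq hC.mem₂ _ _
    hne, NDV_coe_q, hC.e_eq]
  have h := isGU_mid_q A hA B
  rw [zpow_neg, zpow_natCast, mul_comm ((piF M q ^ (q - 1))⁻¹)]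
  exact h

end

end Fermat.Agent.S36Lib
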